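/-
Programme S33, brick O4 (773) (helper34): **finite flat models from S19**, core file.

Everything here (namespace `Fermat.Agent.S33P.FlatS19_34.Core`) takes S19 in the intrinsic form
`h19 : Flat44.S19FlatTarget` as an explicit hypothesis, so that this file (and its consumers) do not
need the closure of `Fermat.Agent.S19`; the hypothesis is discharged by `FlatS19_34.s19FlatTarget`
(file `FlatS19_34/Main.lean`, which imports this file).

`M` a level, `p` a prime not dividing `M`.  By S19 every `J₀(M)[p^n]` is, Galois-equivariantly, the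
group of `ℚ̄`-points of a finite flat commutative group scheme over `ℤ_(p)` (`Flat44.HasFlatModel`).
By the lattice step of `T1/S32Asm8` the same holds for every quotient `V ⧸ W` of a `ℤ_p`-module `V`
with Galois action having an injective equivariant `ℤ_p`-linear map `Ψ : V → (T_p J₀(M))^r`,
`W ⊇ p^k V` a Galois-stable subgroup.

* `hasFlatModel_torsion`           : `HasFlatModel p (J₀(M)[p^n])`, `p ∤ M`;
* `hasFlatModel_quot_addSubgroup`  : `HasFlatModel p (V ⧸ W)`, `W` an additive subgroup;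
* `hasFlatModel_quot_submodule`    : `HasFlatModel p (V ⧸ S)`, `S` a submodule over any coefficient
                                     ring `A` (a `ℤ_p`-algebra), action `S.mapQ S (ρ σ)`;
* `hasFlatModel_quot_smul_top`     : `HasFlatModel p (V ⧸ I • ⊤)` for an ideal `I ∋ p^k`;
* `hasFlatModel_quot_pow`          : `HasFlatModel p (V ⧸ p^n V)`   (**O4** as stated in report 1237);
* `funOrder_quot_*`                : the same with conclusion `Nonempty (Flat44.FunOrder p _ _)`;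
* `hflat_of_embedding`             : the hypothesis `hflat` of `Red63.quadratic_of_funOrders`;
* `hflat_of_map_submodule`, `hflat_of_map'`, `hflat_of_map`, `hflat_of_witness` : the hypothesis
                                     `hflat` of `Red63.quadModAt_IA` (`V` modulo `𝔭V + p^n V`), for a
                                     not necessarily injective `Φ` with `ker Φ ⊆ 𝔭V`.
-/
import Mathlib
import Fermat.Agent.Flat44.S19Target
import Fermat.Agent.T1.S32Asm8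
import Fermat.Agent.ES.KUM.FiniteTorsion15
import Fermat.Agent.S33P.MinPrime64.Basic

set_option autoImplicit false
set_option linter.unusedSectionVars false
set_option linter.style.haveILetI false

noncomputable section

namespace Fermat.Agent.S33P.FlatS19_34.Core

open AlgebraicCurve ModularCurve
open Fermat.Agent.Flat44 Fermat.Agent.ES.J.TateModule13 Fermat.Agent.T1.S32Asm8

variable {p : ℕ} [hp : Fact p.Prime]

/-- `J₀(M)[p^n]` has a finite flat model, `p ∤ M` (from S19 in the intrinsic form). -/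
theorem hasFlatModel_torsion (h19 : S19FlatTarget) (M : ℕ) [NeZero M] (hpM : ¬ p ∣ M) (n : ℕ) :
    HasFlatModel p ↥(Submodule.torsionBy ℤ (JZero M) ((p : ℤ) ^ n))
      (torAct (p := p) (J := JZero M) n) :=
  h19 M p hpM n

/-- The `p`-torsion of `J₀(M)(ℚ̄)` is finite. -/
theorem finite_pTorsion (M : ℕ) [NeZero M] : Finite {y : JZero M // p • y = 0} :=
  haveI : NeZero p := ⟨hp.out.ne_zero⟩
  (Fermat.Agent.ES.KUM.FiniteTorsion15.finite_setOf_nsmul_eq_zero M p).to_subtype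

section Quot

variable (M : ℕ) [NeZero M]

/-- **O4, additive-subgroup form.** -/
theorem hasFlatModel_quot_addSubgroup (h19 : S19FlatTarget) (hpM : ¬ p ∣ M)
    {V : Type} [AddCommGroup V] [Module ℤ_[p] V] (actV : GQ → V → V)
    {r : ℕ} (Ψ : V →ₗ[ℤ_[p]] (Fin r → TateModule p (JZero M))) (hΨ : Function.Injective Ψ)
    (hΨσ : ∀ (σ : GQ) (v : V) (i : Fin r), Ψ (actV σ v) i = rho p (JZero M) σ (Ψ v i))
    (W : AddSubgroup V) (k : ℕ) (hk : ∀ v : V, ((p : ℤ_[p]) ^ k) • v ∈ W)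
    (hW : ∀ σ, ∀ v ∈ W, actV σ v ∈ W)
    (actq : GQ → V ⧸ W → V ⧸ W)
    (hq : ∀ σ v, actq σ (QuotientAddGroup.mk v) = QuotientAddGroup.mk (actV σ v)) :
    HasFlatModel p (V ⧸ W) actq := by
  haveI := finite_pTorsion (p := p) M
  exact hasFlatModel_quot (hasFlatModel_torsion h19 M hpM) actV Ψ hΨ hΨσ W k hk hW actq hq

/-- The additive identification `V ⧸ S.toAddSubgroup ≃+ V ⧸ S`. -/
def quotEquiv {A : Type*} [Ring A] {V : Type*} [AddCommGroup V] [Module A V]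
    (S : Submodule A V) : (V ⧸ S.toAddSubgroup) ≃+ (V ⧸ S) where
  toFun := QuotientAddGroup.lift S.toAddSubgroup S.mkQ.toAddMonoidHom (fun v hv => by
    show S.mkQ v = 0
    rw [Submodule.mkQ_apply, Submodule.Quotient.mk_eq_zero]
    exact hv)
  invFun := fun q => Quotient.liftOn' q (fun v => (QuotientAddGroup.mk v : V ⧸ S.toAddSubgroup))
    (fun a b hab => by
      rw [QuotientAddGroup.eq]
      have := (Submodule.quotientRel_def S).1 hab
      have h2 : -a + b = -(a - b) := by abel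
      rw [h2]
      exact S.toAddSubgroup.neg_mem this)
  left_inv := fun q => by
    induction q using QuotientAddGroup.induction_on
    rfl
  right_inv := fun q => by
    induction q using Submodule.Quotient.induction_on
    rfl
  map_add' := fun a b => map_add _ a b

@[simp] theorem quotEquiv_mk {A : Type*} [Ring A] {V : Type*} [AddCommGroup V] [Module A V]
    (S : Submodule A V) (v : V) :
    quotEquiv S (QuotientAddGroup.mk v) = Submodule.Quotient.mk v := rfl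

/-- **O4, submodule form**: `A` any coefficient ring, `V` an `A`-module and a `ℤ_p`-module,
`ρ σ` `A`-linear, `S` a `ρ`-stable `A`-submodule containing `p^k V`. -/
theorem hasFlatModel_quot_submodule (h19 : S19FlatTarget) (hpM : ¬ p ∣ M)
    {A : Type} [CommRing A] {V : Type} [AddCommGroup V] [Module A V] [Module ℤ_[p] V]
    (ρ : GQ → V →ₗ[A] V)
    {r : ℕ} (Ψ : V →ₗ[ℤ_[p]] (Fin r → TateModule p (JZero M))) (hΨ : Function.Injective Ψ)
    (hΨσ : ∀ (σ : GQ) (v : V) (i : Fin r), Ψ (ρ σ v) i = rho p (JZero M) σ (Ψ v i))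
    (S : Submodule A V) (k : ℕ) (hk : ∀ v : V, ((p : ℤ_[p]) ^ k) • v ∈ S)
    (hS : ∀ σ, S ≤ S.comap (ρ σ)) :
    HasFlatModel p (V ⧸ S) (fun σ => S.mapQ S (ρ σ) (hS σ)) := by
  let actq : GQ → V ⧸ S.toAddSubgroup → V ⧸ S.toAddSubgroup := fun σ q =>
    (quotEquiv S).symm (S.mapQ S (ρ σ) (hS σ) (quotEquiv S q))
  have hq : ∀ σ v, actq σ (QuotientAddGroup.mk v) = QuotientAddGroup.mk (ρ σ v) := by
    intro σ v
    show (quotEquiv S).symm (S.mapQ S (ρ σ) (hS σ) (quotEquiv S (QuotientAddGroup.mk v))) = _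
    rw [AddEquiv.symm_apply_eq, quotEquiv_mk, quotEquiv_mk, Submodule.mapQ_apply]
  have h1 := hasFlatModel_quot_addSubgroup M h19 hpM (fun σ v => ρ σ v) Ψ hΨ hΨσ S.toAddSubgroup k hk
    (fun σ v hv => hS σ hv) actq hq
  refine h1.of_equiv (quotEquiv S) fun σ q => ?_
  show quotEquiv S ((quotEquiv S).symm (S.mapQ S (ρ σ) (hS σ) (quotEquiv S q))) = _
  rw [AddEquiv.apply_symm_apply]

/-- `I • ⊤` is stable under every `A`-linear endomorphism. -/
theorem smul_top_le_comap {A : Type*} [CommRing A] {V : Type*} [AddCommGroup V] [Module A V]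
    (I : Ideal A) (f : V →ₗ[A] V) :
    I • (⊤ : Submodule A V) ≤ (I • (⊤ : Submodule A V)).comap f := by
  rw [← Submodule.map_le_iff_le_comap, Submodule.map_smul'']
  exact Submodule.smul_mono le_rfl le_top

/-- **O4 for `V ⧸ I V`**, `I` an ideal of the coefficient ring containing `p^k`. -/
theorem hasFlatModel_quot_smul_top (h19 : S19FlatTarget) (hpM : ¬ p ∣ M)
    {A : Type} [CommRing A] [Algebra ℤ_[p] A] {V : Type} [AddCommGroup V] [Module A V]
    [Module ℤ_[p] V] [IsScalarTower ℤ_[p] A V]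
    (ρ : GQ → V →ₗ[A] V)
    {r : ℕ} (Ψ : V →ₗ[ℤ_[p]] (Fin r → TateModule p (JZero M))) (hΨ : Function.Injective Ψ)
    (hΨσ : ∀ (σ : GQ) (v : V) (i : Fin r), Ψ (ρ σ v) i = rho p (JZero M) σ (Ψ v i))
    (I : Ideal A) (k : ℕ) (hk : (p : A) ^ k ∈ I) :
    HasFlatModel p (V ⧸ (I • (⊤ : Submodule A V)))
      (fun σ => (I • (⊤ : Submodule A V)).mapQ _ (ρ σ) (smul_top_le_comap I (ρ σ))) := by
  refine hasFlatModel_quot_submodule M h19 hpM ρ Ψ hΨ hΨσ (I • (⊤ : Submodule A V)) k ?_ _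
  intro v
  have h1 : ((p : ℤ_[p]) ^ k) • v = ((p : A) ^ k) • v := by
    rw [← algebraMap_smul A ((p : ℤ_[p]) ^ k) v, map_pow, map_natCast]
  rw [h1]
  exact Submodule.smul_mem_smul hk Submodule.mem_top

/-- **O4** (report 1237): `V ⧸ p^n V` has a finite flat model. -/
theorem hasFlatModel_quot_pow (h19 : S19FlatTarget) (hpM : ¬ p ∣ M)
    {A : Type} [CommRing A] [Algebra ℤ_[p] A] {V : Type} [AddCommGroup V] [Module A V]
    [Module ℤ_[p] V] [IsScalarTower ℤ_[p] A V]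
    (ρ : GQ → V →ₗ[A] V)
    {r : ℕ} (Ψ : V →ₗ[ℤ_[p]] (Fin r → TateModule p (JZero M))) (hΨ : Function.Injective Ψ)
    (hΨσ : ∀ (σ : GQ) (v : V) (i : Fin r), Ψ (ρ σ v) i = rho p (JZero M) σ (Ψ v i))
    (n : ℕ) :
    HasFlatModel p (V ⧸ ((Ideal.span {(p : A) ^ n}) • (⊤ : Submodule A V)))
      (fun σ => ((Ideal.span {(p : A) ^ n}) • (⊤ : Submodule A V)).mapQ _ (ρ σ)
        (smul_top_le_comap _ (ρ σ))) :=
  hasFlatModel_quot_smul_top M h19 hpM ρ Ψ hΨ hΨσ (Ideal.span {(p : A) ^ n}) n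
    (Ideal.mem_span_singleton_self _)

/-! ### The same statements for `Flat44.FunOrder` -/

/-- **O4, function-order form** (submodule quotient). -/
theorem funOrder_quot_submodule (h19 : S19FlatTarget) (hpM : ¬ p ∣ M)
    {A : Type} [CommRing A] {V : Type} [AddCommGroup V] [Module A V] [Module ℤ_[p] V]
    (ρ : GQ → V →ₗ[A] V)
    {r : ℕ} (Ψ : V →ₗ[ℤ_[p]] (Fin r → TateModule p (JZero M))) (hΨ : Function.Injective Ψ)
    (hΨσ : ∀ (σ : GQ) (v : V) (i : Fin r), Ψ (ρ σ v) i = rho p (JZero M) σ (Ψ v i))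
    (S : Submodule A V) (k : ℕ) (hk : ∀ v : V, ((p : ℤ_[p]) ^ k) • v ∈ S)
    (hS : ∀ σ, S ≤ S.comap (ρ σ)) :
    Nonempty (FunOrder p (V ⧸ S) (fun σ => S.mapQ S (ρ σ) (hS σ))) :=
  funOrder_of_hasFlatModel (hasFlatModel_quot_submodule M h19 hpM ρ Ψ hΨ hΨσ S k hk hS)

/-- **O4, function-order form** (`V ⧸ p^n V`). -/
theorem funOrder_quot_pow (h19 : S19FlatTarget) (hpM : ¬ p ∣ M)
    {A : Type} [CommRing A] [Algebra ℤ_[p] A] {V : Type} [AddCommGroup V] [Module A V]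
    [Module ℤ_[p] V] [IsScalarTower ℤ_[p] A V]
    (ρ : GQ → V →ₗ[A] V)
    {r : ℕ} (Ψ : V →ₗ[ℤ_[p]] (Fin r → TateModule p (JZero M))) (hΨ : Function.Injective Ψ)
    (hΨσ : ∀ (σ : GQ) (v : V) (i : Fin r), Ψ (ρ σ v) i = rho p (JZero M) σ (Ψ v i))
    (n : ℕ) :
    Nonempty (FunOrder p (V ⧸ ((Ideal.span {(p : A) ^ n}) • (⊤ : Submodule A V)))
      (fun σ => ((Ideal.span {(p : A) ^ n}) • (⊤ : Submodule A V)).mapQ _ (ρ σ)
        (smul_top_le_comap _ (ρ σ)))) :=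
  funOrder_of_hasFlatModel (hasFlatModel_quot_pow M h19 hpM ρ Ψ hΨ hΨσ n)

/-- **O4, function-order form** (additive-subgroup quotient). -/
theorem funOrder_quot_addSubgroup (h19 : S19FlatTarget) (hpM : ¬ p ∣ M)
    {V : Type} [AddCommGroup V] [Module ℤ_[p] V] (actV : GQ → V → V)
    {r : ℕ} (Ψ : V →ₗ[ℤ_[p]] (Fin r → TateModule p (JZero M))) (hΨ : Function.Injective Ψ)
    (hΨσ : ∀ (σ : GQ) (v : V) (i : Fin r), Ψ (actV σ v) i = rho p (JZero M) σ (Ψ v i))
    (W : AddSubgroup V) (k : ℕ) (hk : ∀ v : V, ((p : ℤ_[p]) ^ k) • v ∈ W)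
    (hW : ∀ σ, ∀ v ∈ W, actV σ v ∈ W)
    (actq : GQ → V ⧸ W → V ⧸ W)
    (hq : ∀ σ v, actq σ (QuotientAddGroup.mk v) = QuotientAddGroup.mk (actV σ v)) :
    Nonempty (FunOrder p (V ⧸ W) actq) :=
  funOrder_of_hasFlatModel
    (hasFlatModel_quot_addSubgroup M h19 hpM actV Ψ hΨ hΨσ W k hk hW actq hq)

/-- **O4 in the consumer shape of `Red63.quadratic_of_funOrders` (`hflat`)**: for every `n` a
quotient `π : Λ → Q` with kernel `p^n Λ`, equivariant, carrying a function order. -/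
theorem hflat_of_embedding (h19 : S19FlatTarget) (hpM : ¬ p ∣ M)
    {B : Type} [CommRing B] [Algebra ℤ_[p] B] {Λ : Type} [AddCommGroup Λ] [Module B Λ]
    [Module ℤ_[p] Λ] [IsScalarTower ℤ_[p] B Λ]
    (ρ : GQ → Λ →ₗ[B] Λ)
    {r : ℕ} (Ψ : Λ →ₗ[ℤ_[p]] (Fin r → TateModule p (JZero M))) (hΨ : Function.Injective Ψ)
    (hΨσ : ∀ (σ : GQ) (v : Λ) (i : Fin r), Ψ (ρ σ v) i = rho p (JZero M) σ (Ψ v i))
    (n : ℕ) :
    ∃ (Q : Type) (_ : AddCommGroup Q) (actQ : GQ → Q → Q) (π : Λ →+ Q),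
      Function.Surjective π ∧
      (∀ v, π v = 0 ↔ v ∈ ((Ideal.span {(p : B) ^ n}) • (⊤ : Submodule B Λ))) ∧
      (∀ g v, π (ρ g v) = actQ g (π v)) ∧ Nonempty (FunOrder p Q actQ) := by
  refine ⟨Λ ⧸ ((Ideal.span {(p : B) ^ n}) • (⊤ : Submodule B Λ)), inferInstance,
    fun σ => ((Ideal.span {(p : B) ^ n}) • (⊤ : Submodule B Λ)).mapQ _ (ρ σ)
      (smul_top_le_comap _ (ρ σ)),
    ((Ideal.span {(p : B) ^ n}) • (⊤ : Submodule B Λ)).mkQ.toAddMonoidHom, ?_, ?_, ?_, ?_⟩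
  · exact Submodule.mkQ_surjective _
  · intro v
    exact Submodule.Quotient.mk_eq_zero _
  · intro g v
    rfl
  · exact funOrder_quot_pow M h19 hpM ρ Ψ hΨ hΨσ n

/-! ### Non-injective form: the kernel of `Φ` is contained in the subgroup divided out -/

/-- **O4 for a not necessarily injective `Φ`**: `V` a `ℤ_p`-module with a `ℤ_p`-linear Galois
action `ρ`, `Φ : V → (T_p J₀(M))^r` equivariant, `W ⊇ ker Φ + p^k V` a stable `ℤ_p`-submodule.
Then `V ⧸ W` (in the guise of `(V ⧸ ker Φ) ⧸ (image of W)`) carries a function order. -/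
theorem hflat_of_map_submodule (h19 : S19FlatTarget) (hpM : ¬ p ∣ M)
    {V : Type} [AddCommGroup V] [Module ℤ_[p] V]
    (ρ : GQ → V →ₗ[ℤ_[p]] V)
    {r : ℕ} (Φ : V →ₗ[ℤ_[p]] (Fin r → TateModule p (JZero M)))
    (hΦσ : ∀ (σ : GQ) (v : V) (i : Fin r), Φ (ρ σ v) i = rho p (JZero M) σ (Φ v i))
    (W : Submodule ℤ_[p] V) (hKW : LinearMap.ker Φ ≤ W) (k : ℕ)
    (hk : ∀ v : V, ((p : ℤ_[p]) ^ k) • v ∈ W) (hW : ∀ σ, W ≤ W.comap (ρ σ)) :
    ∃ (Q : Type) (_ : AddCommGroup Q) (actQ : GQ → Q → Q) (π : V →+ Q),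
      Function.Surjective π ∧ (∀ v, π v = 0 ↔ v ∈ W) ∧
      (∀ g v, π (ρ g v) = actQ g (π v)) ∧ Nonempty (FunOrder p Q actQ) := by
  have hK : ∀ σ, LinearMap.ker Φ ≤ (LinearMap.ker Φ).comap (ρ σ) := by
    intro σ v hv
    rw [LinearMap.mem_ker] at hv
    rw [Submodule.mem_comap, LinearMap.mem_ker]
    funext i
    rw [hΦσ, hv]
    exact map_zero _
  let ρ' : GQ → (V ⧸ LinearMap.ker Φ) →ₗ[ℤ_[p]] (V ⧸ LinearMap.ker Φ) :=
    fun σ => (LinearMap.ker Φ).mapQ (LinearMap.ker Φ) (ρ σ) (hK σ)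
  let Ψ : (V ⧸ LinearMap.ker Φ) →ₗ[ℤ_[p]] (Fin r → TateModule p (JZero M)) :=
    (LinearMap.ker Φ).liftQ Φ le_rfl
  have hΨ : Function.Injective Ψ := by
    rw [← LinearMap.ker_eq_bot]
    exact Submodule.ker_liftQ_eq_bot _ _ _ le_rfl
  have hΨσ : ∀ (σ : GQ) (q : V ⧸ LinearMap.ker Φ) (i : Fin r),
      Ψ (ρ' σ q) i = rho p (JZero M) σ (Ψ q i) := by
    intro σ q i
    induction q using Submodule.Quotient.induction_on with
    | H v => exact hΦσ σ v i
  have hS : ∀ σ, W.map (LinearMap.ker Φ).mkQ ≤ (W.map (LinearMap.ker Φ).mkQ).comap (ρ' σ) := by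
    intro σ q hq
    rw [Submodule.mem_map] at hq
    obtain ⟨w, hw, rfl⟩ := hq
    rw [Submodule.mem_comap, Submodule.mem_map]
    exact ⟨ρ σ w, hW σ hw, rfl⟩
  have hkS : ∀ q : V ⧸ LinearMap.ker Φ, ((p : ℤ_[p]) ^ k) • q ∈ W.map (LinearMap.ker Φ).mkQ := by
    intro q
    induction q using Submodule.Quotient.induction_on with
    | H v => exact Submodule.mem_map.2 ⟨_, hk v, rfl⟩
  refine ⟨(V ⧸ LinearMap.ker Φ) ⧸ W.map (LinearMap.ker Φ).mkQ, inferInstance,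
    fun σ => (W.map (LinearMap.ker Φ).mkQ).mapQ _ (ρ' σ) (hS σ),
    ((W.map (LinearMap.ker Φ).mkQ).mkQ.comp (LinearMap.ker Φ).mkQ).toAddMonoidHom, ?_, ?_, ?_, ?_⟩
  · exact (Submodule.mkQ_surjective _).comp (Submodule.mkQ_surjective _)
  · intro v
    show (W.map (LinearMap.ker Φ).mkQ).mkQ ((LinearMap.ker Φ).mkQ v) = 0 ↔ _
    rw [Submodule.mkQ_apply, Submodule.Quotient.mk_eq_zero, Submodule.mem_map]
    constructor
    · rintro ⟨w, hw, hwv⟩
      have h1 : w - v ∈ LinearMap.ker Φ := (Submodule.Quotient.eq _).1 hwv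
      have h2 : v = w - (w - v) := by abel
      rw [h2]
      exact W.sub_mem hw (hKW h1)
    · intro hv
      exact ⟨v, hv, rfl⟩
  · intro g v
    rfl
  · exact funOrder_quot_submodule M h19 hpM ρ' Ψ hΨ hΨσ _ k hkS hS

/-- **O4 modulo an ideal, one-directional kernel hypothesis**: `Φ : V → (T_p J₀(M))^r` equivariant
with `ker Φ ⊆ 𝔭V`; then `V ⧸ (𝔭V + p^n V)` carries a function order.  This is the hypothesis `hflat`
of `Red63.quadModAt_IA`. -/
theorem hflat_of_map' (h19 : S19FlatTarget) (hpM : ¬ p ∣ M)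
    {T : Type} [CommRing T] [Algebra ℤ_[p] T] {V : Type} [AddCommGroup V] [Module T V]
    [Module ℤ_[p] V] [IsScalarTower ℤ_[p] T V]
    (ρ : GQ → V →ₗ[T] V)
    {r : ℕ} (Φ : V →ₗ[ℤ_[p]] (Fin r → TateModule p (JZero M)))
    (hΦσ : ∀ (σ : GQ) (v : V) (i : Fin r), Φ (ρ σ v) i = rho p (JZero M) σ (Φ v i))
    (𝔭 : Ideal T) (hker : ∀ v, Φ v = 0 → v ∈ (𝔭 • ⊤ : Submodule T V)) (n : ℕ) :
    ∃ (Q : Type) (_ : AddCommGroup Q) (actQ : GQ → Q → Q) (π : V →+ Q),
      Function.Surjective π ∧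
      (∀ v, π v = 0 ↔ v ∈ (𝔭 • ⊤ : Submodule T V) ⊔
        (Ideal.span {(p : T) ^ n} • ⊤ : Submodule T V)) ∧
      (∀ g v, π (ρ g v) = actQ g (π v)) ∧ Nonempty (FunOrder p Q actQ) := by
  have hKW : LinearMap.ker Φ ≤ ((𝔭 • ⊤ : Submodule T V) ⊔
      (Ideal.span {(p : T) ^ n} • ⊤ : Submodule T V)).restrictScalars ℤ_[p] := by
    intro v hv
    rw [LinearMap.mem_ker] at hv
    rw [Submodule.restrictScalars_mem]
    exact Submodule.mem_sup_left (hker v hv)
  have hk : ∀ v : V, ((p : ℤ_[p]) ^ n) • v ∈ ((𝔭 • ⊤ : Submodule T V) ⊔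
      (Ideal.span {(p : T) ^ n} • ⊤ : Submodule T V)).restrictScalars ℤ_[p] := by
    intro v
    rw [Submodule.restrictScalars_mem]
    have h1 : ((p : ℤ_[p]) ^ n) • v = ((p : T) ^ n) • v := by
      rw [← algebraMap_smul T ((p : ℤ_[p]) ^ n) v, map_pow, map_natCast]
    rw [h1]
    exact Submodule.mem_sup_right
      (Submodule.smul_mem_smul (Ideal.mem_span_singleton_self _) Submodule.mem_top)
  have hW0 : ∀ σ, ((𝔭 • ⊤ : Submodule T V) ⊔ (Ideal.span {(p : T) ^ n} • ⊤ : Submodule T V)) ≤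
      ((𝔭 • ⊤ : Submodule T V) ⊔
        (Ideal.span {(p : T) ^ n} • ⊤ : Submodule T V)).comap (ρ σ) := fun σ =>
    sup_le ((smul_top_le_comap 𝔭 (ρ σ)).trans (Submodule.comap_mono le_sup_left))
      ((smul_top_le_comap _ (ρ σ)).trans (Submodule.comap_mono le_sup_right))
  have hW : ∀ σ, ((𝔭 • ⊤ : Submodule T V) ⊔
      (Ideal.span {(p : T) ^ n} • ⊤ : Submodule T V)).restrictScalars ℤ_[p] ≤
      (((𝔭 • ⊤ : Submodule T V) ⊔
        (Ideal.span {(p : T) ^ n} • ⊤ : Submodule T V)).restrictScalars ℤ_[p]).comap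
          ((ρ σ).restrictScalars ℤ_[p]) := fun σ v hv => hW0 σ hv
  obtain ⟨Q, iQ, actQ, π, hsurj, hker', heq, hF⟩ :=
    hflat_of_map_submodule M h19 hpM (fun σ => (ρ σ).restrictScalars ℤ_[p]) Φ
      (fun σ v i => hΦσ σ v i) _ hKW n hk hW
  exact ⟨Q, iQ, actQ, π, hsurj,
    fun v => (hker' v).trans (Submodule.restrictScalars_mem _ _ _), fun g v => heq g v, hF⟩

/-- **O4 modulo an ideal** (helper63's shape): `Φ : V → (T_p J₀(M))^r` equivariant with kernel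
`𝔭V`. -/
theorem hflat_of_map (h19 : S19FlatTarget) (hpM : ¬ p ∣ M)
    {T : Type} [CommRing T] [Algebra ℤ_[p] T] {V : Type} [AddCommGroup V] [Module T V]
    [Module ℤ_[p] V] [IsScalarTower ℤ_[p] T V]
    (ρ : GQ → V →ₗ[T] V)
    {r : ℕ} (Φ : V →ₗ[ℤ_[p]] (Fin r → TateModule p (JZero M)))
    (hΦσ : ∀ (σ : GQ) (v : V) (i : Fin r), Φ (ρ σ v) i = rho p (JZero M) σ (Φ v i))
    (𝔭 : Ideal T) (hker : ∀ v, Φ v = 0 ↔ v ∈ (𝔭 • ⊤ : Submodule T V)) (n : ℕ) :
    ∃ (Q : Type) (_ : AddCommGroup Q) (actQ : GQ → Q → Q) (π : V →+ Q),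
      Function.Surjective π ∧
      (∀ v, π v = 0 ↔ v ∈ (𝔭 • ⊤ : Submodule T V) ⊔
        (Ideal.span {(p : T) ^ n} • ⊤ : Submodule T V)) ∧
      (∀ g v, π (ρ g v) = actQ g (π v)) ∧ Nonempty (FunOrder p Q actQ) :=
  hflat_of_map' M h19 hpM ρ Φ hΦσ 𝔭 (fun v h => (hker v).1 h) n

/-- **O4 modulo a prime, witness form** (the shape of the `OLD` alternative in
`Alg16.cubic_of_halves`): `V` free, `a ∉ 𝔭`, `Φ` injective on `aV`. -/
theorem hflat_of_witness (h19 : S19FlatTarget) (hpM : ¬ p ∣ M)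
    {T : Type} [CommRing T] [Algebra ℤ_[p] T] {V : Type} [AddCommGroup V] [Module T V]
    [Module.Free T V] [Module ℤ_[p] V] [IsScalarTower ℤ_[p] T V]
    (ρ : GQ → V →ₗ[T] V)
    {r : ℕ} (Φ : V →ₗ[ℤ_[p]] (Fin r → TateModule p (JZero M)))
    (hΦσ : ∀ (σ : GQ) (v : V) (i : Fin r), Φ (ρ σ v) i = rho p (JZero M) σ (Φ v i))
    (𝔭 : Ideal T) [𝔭.IsPrime] (a : T) (ha : a ∉ 𝔭)
    (hinj : ∀ v : V, Φ (a • v) = 0 → a • v = 0) (n : ℕ) :
    ∃ (Q : Type) (_ : AddCommGroup Q) (actQ : GQ → Q → Q) (π : V →+ Q),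
      Function.Surjective π ∧
      (∀ v, π v = 0 ↔ v ∈ (𝔭 • ⊤ : Submodule T V) ⊔
        (Ideal.span {(p : T) ^ n} • ⊤ : Submodule T V)) ∧
      (∀ g v, π (ρ g v) = actQ g (π v)) ∧ Nonempty (FunOrder p Q actQ) := by
  refine hflat_of_map' M h19 hpM ρ
    (Φ.comp ((LinearMap.lsmul T V a).restrictScalars ℤ_[p])) ?_ 𝔭 ?_ n
  · intro σ v i
    show Φ (a • ρ σ v) i = rho p (JZero M) σ (Φ (a • v) i)
    rw [← map_smul, hΦσ]
  · intro v hv
    exact Fermat.Agent.S33P.MinPrime64.mem_smul_top_of_smul_eq_zero ha (hinj v hv)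

end Quot

end Fermat.Agent.S33P.FlatS19_34.Core
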