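/-
Programme S33, brick O4 (773) (helper34): **S19 in the intrinsic form** — the one input of
`FlatS19_34/Core.lean` that needs the closure of `Fermat.Agent.S19` — and the `h19`-free forms of the
two inputs of `Red63.quad_of_embedding_adic` / `Red63.smul_quad_eq_zero_of_embedding`.

Usage: every theorem `FlatS19_34.Core.X h19 …` of `Core.lean` (namespace
`Fermat.Agent.S33P.FlatS19_34.Core`) is applied as `FlatS19_34.Core.X FlatS19_34.s19FlatTarget …`.

* `s19FlatTarget`        : `Flat44.S19FlatTarget`;
* `hasFlatModel_torsion` : `HasFlatModel p (J₀(M)[p^n])` for `p ∤ M`   (`hJ` of the O-half);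
* `finite_pTorsion`      : `Finite {y : J₀(M) // p • y = 0}`           (the `Finite` instance there).
-/
import Mathlib
import Fermat.Agent.S19
import Fermat.Agent.Flat83.S32Main
import Fermat.Agent.S33P.FlatS19_34.Core

set_option autoImplicit false

noncomputable section

namespace Fermat.Agent.S33P.FlatS19_34

/-- **S19** in the intrinsic form. -/
theorem s19FlatTarget : Fermat.Agent.Flat44.S19FlatTarget :=
  Fermat.Agent.Flat83.S32Main.flatTarget_of_s19
    (fun p _ ℓ _ hℓp k => Fermat.Agent.S19.result p ℓ hℓp k)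

variable {p : ℕ} [hp : Fact p.Prime]

/-- `J₀(M)[p^n]` has a finite flat model, `p ∤ M` (S19). -/
theorem hasFlatModel_torsion (M : ℕ) [NeZero M] (hpM : ¬ p ∣ M) (n : ℕ) :
    Fermat.Agent.Flat44.HasFlatModel p
      ↥(Submodule.torsionBy ℤ (ModularCurve.JZero M) ((p : ℤ) ^ n))
      (Fermat.Agent.T1.S32Asm8.torAct (p := p) (J := ModularCurve.JZero M) n) :=
  Core.hasFlatModel_torsion s19FlatTarget M hpM n

/-- The `p`-torsion of `J₀(M)(ℚ̄)` is finite. -/
theorem finite_pTorsion (M : ℕ) [NeZero M] : Finite {y : ModularCurve.JZero M // p • y = 0} :=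
  Core.finite_pTorsion M

end Fermat.Agent.S33P.FlatS19_34
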